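import Fermat.Agent.S24.CharpolyAlt

/-!
# MAZ / Klein / [K5]  a `Γ₀(N)`-invariant holomorphic function bounded at all cusps is constant

PROOF.  `P := S24.CPAlt.cpHol N f = ∏_{x ∈ SL₂(ℤ)/Γ₀(N)} (X - x·f)`.  Its coefficients are `SL₂(ℤ)`-invariant
(`CPAlt.actHol_coeff_cpHol`), holomorphic and bounded at `i∞` (copy `CPAlt.coeff_cpHol_mem_MG` with the
subalgebra of functions bounded at `i∞`), hence constant: `Common.JPoly.exists_polynomial_of_invariant`
with `m = 0` gives a polynomial of degree `≤ 0`.  `f` is a root of `P` (the factor of the trivial coset, as in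
`RED.QEP0`: `Quotient.out 1 ∈ Γ₀(N)`), so for every `τ`, `f τ` is a root of the fixed non zero (monic) polynomial
`p ∈ ℂ[X]`; `f : ℍ → ℂ` is continuous with finite range on the connected space `ℍ`, hence constant
(`IsPreconnected.constant_of_mapsTo` / `PreconnectedSpace.constant` with the discrete finite set of roots).
-/

set_option autoImplicit false

open UpperHalfPlane CongruenceSubgroup
open scoped MatrixGroups

namespace Fermat.Agent.MAZ.Klein

open Fermat.Agent.S24

/-- holomorphic functions bounded at `i∞`. -/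
def bddHol : Subalgebra ℂ Hol where
  carrier := {f | IsBoundedAtImInfty (f : ℍ → ℂ)}
  mul_mem' hf hg := hf.mul hg
  add_mem' hf hg := hf.add hg
  algebraMap_mem' c := Filter.const_boundedAtFilter atImInfty c

/-- evaluation at a point. -/
noncomputable def evHol (τ : ℍ) : Hol →ₐ[ℂ] ℂ := (Pi.evalAlgHom ℂ (fun _ : ℍ => ℂ) τ).comp Hol.val

theorem evHol_apply (τ : ℍ) (f : Hol) : evHol τ f = (f : ℍ → ℂ) τ := rfl

theorem eq_const_of_bounded (N : ℕ) [NeZero N] (f : Hol)
    (hinv : ∀ γ ∈ Gamma0 N, actHol γ f = f)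
    (hb : ∀ g : SL(2, ℤ), IsBoundedAtImInfty ((actHol g f : Hol) : ℍ → ℂ)) :
    ∃ c : ℂ, ∀ τ : ℍ, (f : ℍ → ℂ) τ = c := by
  classical
  set c : ℂ := (f : ℍ → ℂ) I with hc
  refine ⟨c, ?_⟩
  set G : Hol := ∏ x : XN N, (algebraMap ℂ Hol c - actHol (Quotient.out x) f) with hG
  -- invariance
  have hGinv : ∀ g : SL(2, ℤ), actHol g G = G := by
    intro g
    rw [hG, map_prod]
    rw [← Equiv.prod_comp (MulAction.toPerm g : Equiv.Perm (XN N))
      (fun x : XN N => (algebraMap ℂ Hol c - actHol (Quotient.out x) f : Hol))]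
    refine Finset.prod_congr rfl fun x _ => ?_
    rw [map_sub, AlgEquiv.commutes, MulAction.toPerm_apply, CPAlt.actHol_out_smul hinv]
  -- boundedness
  have hGb : G ∈ bddHol :=
    Subalgebra.prod_mem _ fun x _ => sub_mem (bddHol.algebraMap_mem c) (hb _)
  -- `G` is constant
  obtain ⟨p, hp, hpe⟩ := Fermat.Agent.Common.JPoly.exists_polynomial_of_invariant
    (G : ℍ → ℂ) G.2
    (fun γ τ => by
      have h := congrArg (fun u : Hol => (u : ℍ → ℂ) τ) (hGinv γ⁻¹)
      simp only [actHol_apply, inv_inv] at h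
      exact h) 0 (by simp only [pow_zero, one_mul]; exact hGb)
  have hp0 : p = Polynomial.C (p.coeff 0) :=
    Polynomial.eq_C_of_natDegree_le_zero hp
  have hGconst : ∀ τ : ℍ, (G : ℍ → ℂ) τ = p.coeff 0 := fun τ => by
    rw [hpe τ, hp0, Polynomial.eval_C, Polynomial.coeff_C_zero]
  -- `G` vanishes at `I`
  have hout : (Quotient.out ((1 : SL(2, ℤ)) : XN N) : SL(2, ℤ)) ∈ Gamma0 N := by
    have h1 : ((Quotient.out ((1 : SL(2, ℤ)) : XN N) : SL(2, ℤ)) : XN N) = ((1 : SL(2, ℤ)) : XN N) :=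
      QuotientGroup.out_eq' _
    have h2 := QuotientGroup.eq.mp h1.symm
    simpa using h2
  have hGI : (G : ℍ → ℂ) I = 0 := by
    rw [← evHol_apply, hG, map_prod]
    refine Finset.prod_eq_zero (Finset.mem_univ ((1 : SL(2, ℤ)) : XN N)) ?_
    rw [map_sub, AlgHom.commutes, hinv _ hout, evHol_apply, ← hc]
    exact sub_self c
  have hG0 : G = 0 := by
    apply Subtype.ext
    funext τ
    rw [hGconst τ, ← hGconst I, hGI]
    rfl
  obtain ⟨x, -, hx⟩ := Finset.prod_eq_zero_iff.1 (hG ▸ hG0)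
  have h1 : actHol (Quotient.out x) f = algebraMap ℂ Hol c := (sub_eq_zero.1 hx).symm
  have h2 : f = algebraMap ℂ Hol c := by
    have := congrArg (actHol (Quotient.out x)).symm h1
    rwa [AlgEquiv.symm_apply_apply, AlgEquiv.commutes] at this
  intro τ
  rw [h2]
  rfl

end Fermat.Agent.MAZ.Klein
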