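import Fermat.Agent.S24.Growth
import Fermat.Agent.S24.Sigma
import Fermat.Agent.Common.JPoly

/-!
# MAZ / Klein / [K4]  `Δ(Nτ)` under `SL₂(ℤ)`, growth of `Δ`

Tools: `Common.JPoly.discriminant_smul`, `Common.hermite` / `S24.exists_hermite_smul`
(`diag(N,1) g = g' (a b; 0 e)`, `a = gcd(N, g₁₀)`, `a e = N`), `Common.heckeDiag_mul_Gamma0`,
`S24.coe_upperTriangularGL_smul`, `S24.tendsto_discriminant_div_q`, `S24.norm_qParam_coe`,
`S24.mdiff_comp_scal`, `ModularForm.exp_isBigO_discriminant`.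

* `delta_scal_smul_of_mem`: `N (gτ) = g' (Nτ)` with `g' = (g₀₀, N g₀₁; g₁₀/N, g₁₁)`,
  `denom g' (Nτ) = denom g τ`.
* `delta_scal_smul_of_not_mem` (`N` prime, `N ∤ g₁₀`): `a = 1`, `e = N`: `N (gτ) = g' ((τ + j)/N)` and
  `denom g' ((τ+j)/N) = denom g τ / N` (compare the cocycle relation for `denom`, or directly:
  `g' = diag(N,1) g (1 j; 0 N)⁻¹`, second row `(g₁₀, (g₁₁ - j g₁₀)/N)`).
-/

set_option autoImplicit false

open UpperHalfPlane ModularForm CongruenceSubgroup Filter Topology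
open scoped MatrixGroups Manifold Real

namespace Fermat.Agent.MAZ.Klein

open Fermat.Agent.S24

local notation "Δ" => ModularForm.discriminant

variable (N : ℕ) [NeZero N]

theorem mdiff_delta_scal : MDiff (fun τ : ℍ => Δ (scal N τ)) :=
  mdiff_comp_scal N mdiff_discriminant

/-- the general transformation principle: if `w' = g' • w` then `Δ w' = denom ^ 12 Δ w`. -/
theorem delta_eq_of_coe_eq (g' : SL(2, ℤ)) (w w' : ℍ)
    (h : (w' : ℂ) * ((g' 1 0 : ℤ) * (w : ℂ) + (g' 1 1 : ℤ)) =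
      (g' 0 0 : ℤ) * (w : ℂ) + (g' 0 1 : ℤ)) :
    Δ w' = ((g' 1 0 : ℤ) * (w : ℂ) + (g' 1 1 : ℤ)) ^ 12 * Δ w := by
  have hd : denom g' w = (g' 1 0 : ℤ) * (w : ℂ) + (g' 1 1 : ℤ) := by
    simp [denom]
  have hd0 : denom g' w ≠ 0 := denom_ne_zero _ w
  have hw : w' = g' • w := by
    apply UpperHalfPlane.ext
    rw [UpperHalfPlane.specialLinearGroup_apply]
    rw [hd] at hd0
    rw [eq_div_iff (by simpa using hd0)]
    simpa using h
  rw [hw, Fermat.Agent.Common.JPoly.discriminant_smul, hd]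
  norm_cast

theorem denom_eq_coe (g : SL(2, ℤ)) (τ : ℍ) :
    denom g τ = (g 1 0 : ℤ) * (τ : ℂ) + (g 1 1 : ℤ) := by
  simp [denom]

theorem coe_smul_mul_denom (g : SL(2, ℤ)) (τ : ℍ) :
    ((g • τ : ℍ) : ℂ) * ((g 1 0 : ℤ) * (τ : ℂ) + (g 1 1 : ℤ)) =
      (g 0 0 : ℤ) * (τ : ℂ) + (g 0 1 : ℤ) := by
  have hd0 : denom g τ ≠ 0 := denom_ne_zero _ τ
  rw [denom_eq_coe] at hd0
  rw [UpperHalfPlane.specialLinearGroup_apply]
  simp only [algebraMap_int_eq, Int.coe_castRingHom, Complex.ofReal_intCast]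
  rw [div_mul_cancel₀ _ hd0]

theorem delta_scal_smul_of_mem {g : SL(2, ℤ)} (hg : g ∈ Gamma0 N) (τ : ℍ) :
    Δ (scal N (g • τ)) = denom g τ ^ 12 * Δ (scal N τ) := by
  rw [Gamma0_mem, ZMod.intCast_zmod_eq_zero_iff_dvd] at hg
  obtain ⟨c, hc⟩ := hg
  have hdet : g 0 0 * g 1 1 - g 0 1 * g 1 0 = 1 := by
    have := g.det_coe
    rwa [Matrix.det_fin_two] at this
  let g' : SL(2, ℤ) := ⟨!![g 0 0, N * g 0 1; c, g 1 1], by
    rw [Matrix.det_fin_two_of]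
    rw [hc] at hdet
    linear_combination hdet⟩
  have e00 : g' 0 0 = g 0 0 := rfl
  have e01 : g' 0 1 = N * g 0 1 := rfl
  have e10 : g' 1 0 = c := rfl
  have e11 : g' 1 1 = g 1 1 := rfl
  have key := coe_smul_mul_denom g τ
  have hcc : ((g 1 0 : ℤ) : ℂ) = (N : ℂ) * (c : ℂ) := by rw [hc]; push_cast; ring
  have h := delta_eq_of_coe_eq g' (scal N τ) (scal N (g • τ)) (by
    rw [e00, e01, e10, e11, coe_scal, coe_scal]
    push_cast
    rw [hcc] at key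
    linear_combination (N : ℂ) * key)
  rw [h, denom_eq_coe, e10, e11, coe_scal, hcc]
  ring

theorem delta_scal_smul_of_not_mem (hN : N.Prime) {g : SL(2, ℤ)} (hg : g ∉ Gamma0 N) :
    ∃ j : ℤ, ∀ τ : ℍ,
      Δ (scal N (g • τ)) = (denom g τ / N) ^ 12 * Δ (ofComplex (((τ : ℂ) + j) / N)) := by
  rw [Gamma0_mem, ZMod.intCast_zmod_eq_zero_iff_dvd] at hg
  have hdet : g 0 0 * g 1 1 - g 0 1 * g 1 0 = 1 := by
    have := g.det_coe
    rwa [Matrix.det_fin_two] at this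
  have hcop : IsCoprime (g 1 0) (N : ℤ) := by
    have hp : Prime (N : ℤ) := Nat.prime_iff_prime_int.1 hN
    exact ((Prime.coprime_iff_not_dvd hp).2 hg).symm
  obtain ⟨u, v, huv⟩ := hcop
  -- `j = u g₁₁`, `g₁₁ - j g₁₀ = N v g₁₁`
  refine ⟨u * g 1 1, fun τ => ?_⟩
  set j : ℤ := u * g 1 1 with hj
  have hjd : g 1 1 - j * g 1 0 = N * (v * g 1 1) := by
    rw [hj]; linear_combination (-(g 1 1)) * huv
  let g' : SL(2, ℤ) := ⟨!![N * g 0 0, g 0 1 - j * g 0 0; g 1 0, v * g 1 1], by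
    rw [Matrix.det_fin_two_of]
    linear_combination hdet - (g 0 0) * hjd⟩
  have e00 : g' 0 0 = N * g 0 0 := rfl
  have e01 : g' 0 1 = g 0 1 - j * g 0 0 := rfl
  have e10 : g' 1 0 = g 1 0 := rfl
  have e11 : g' 1 1 = v * g 1 1 := rfl
  have hN0 : (N : ℂ) ≠ 0 := Nat.cast_ne_zero.2 (NeZero.ne N)
  have hNpos : (0 : ℝ) < N := Nat.cast_pos.2 (Nat.pos_of_ne_zero (NeZero.ne N))
  have him : 0 < (((τ : ℂ) + j) / N).im := by
    have : (((τ : ℂ) + j) / N).im = τ.im / N := by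
      rw [Complex.div_natCast_im]
      simp
    rw [this]
    exact div_pos τ.im_pos hNpos
  have hw : ((ofComplex (((τ : ℂ) + j) / N) : ℍ) : ℂ) = ((τ : ℂ) + j) / N := by
    rw [ofComplex_apply_of_im_pos him]
  have key := coe_smul_mul_denom g τ
  have hjc : ((g 1 1 : ℤ) : ℂ) - (j : ℂ) * ((g 1 0 : ℤ) : ℂ) = (N : ℂ) * ((v : ℂ) * ((g 1 1 : ℤ) : ℂ)) := by
    exact_mod_cast hjd
  have hNw : (N : ℂ) * (((τ : ℂ) + j) / N) = (τ : ℂ) + j := mul_div_cancel₀ _ hN0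
  have h := delta_eq_of_coe_eq g' (ofComplex (((τ : ℂ) + j) / N)) (scal N (g • τ)) (by
    rw [e00, e01, e10, e11, coe_scal, hw]
    push_cast
    linear_combination key + (((g • τ : ℍ) : ℂ) * ((g 1 0 : ℤ) : ℂ) - ((g 0 0 : ℤ) : ℂ)) * hNw -
      ((g • τ : ℍ) : ℂ) * hjc)
  rw [h, denom_eq_coe, e10, e11, hw]
  congr 2
  rw [eq_div_iff hN0]
  push_cast
  linear_combination ((g 1 0 : ℤ) : ℂ) * hNw - hjc

theorem delta_norm_bounds :
    ∃ c C A : ℝ, 0 < c ∧ ∀ τ : ℍ, A ≤ τ.im →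
      c * Real.exp (-2 * π * τ.im) ≤ ‖Δ τ‖ ∧ ‖Δ τ‖ ≤ C * Real.exp (-2 * π * τ.im) := by
  have h1 : ∀ᶠ τ : ℍ in atImInfty, ‖Δ τ / Function.Periodic.qParam 1 (τ : ℂ) - 1‖ < 1 / 2 := by
    have := (Metric.tendsto_nhds.1 tendsto_discriminant_div_q) (1 / 2) (by norm_num)
    simpa only [dist_eq_norm] using this
  obtain ⟨A, hA⟩ := (atImInfty_mem _).1 h1
  refine ⟨1 / 2, 3 / 2, A, by norm_num, fun τ hτ => ?_⟩
  have h2 : ‖Δ τ / Function.Periodic.qParam 1 (τ : ℂ) - 1‖ < 1 / 2 := hA τ hτ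
  have hq : ‖Function.Periodic.qParam 1 (τ : ℂ)‖ = Real.exp (-2 * π * τ.im) := norm_qParam_coe τ
  have hq0 : 0 < ‖Function.Periodic.qParam 1 (τ : ℂ)‖ := by rw [hq]; exact Real.exp_pos _
  set r : ℂ := Δ τ / Function.Periodic.qParam 1 (τ : ℂ) with hr
  have hΔ : ‖Δ τ‖ = ‖r‖ * Real.exp (-2 * π * τ.im) := by
    rw [hr, norm_div, hq, div_mul_cancel₀ _ (Real.exp_pos _).ne']
  have h3 : ‖r‖ ≤ 3 / 2 := by
    have : ‖r‖ ≤ ‖r - 1‖ + ‖(1 : ℂ)‖ := by
      simpa using norm_add_le (r - 1) 1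
    rw [norm_one] at this
    linarith
  have h4 : 1 / 2 ≤ ‖r‖ := by
    have : ‖(1 : ℂ)‖ ≤ ‖r‖ + ‖r - 1‖ := by
      have := norm_sub_le r (r - 1)
      simpa using this
    rw [norm_one] at this
    linarith
  rw [hΔ]
  exact ⟨mul_le_mul_of_nonneg_right h4 (Real.exp_pos _).le,
    mul_le_mul_of_nonneg_right h3 (Real.exp_pos _).le⟩

theorem delta_ratio_tendsto :
    Tendsto (fun τ : ℍ => Δ (scal N τ) / Δ τ ^ N) atImInfty (𝓝 1) := by
  have hs : Tendsto (scal N) atImInfty atImInfty :=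
    tendsto_scale_atImInfty (Nat.pos_of_ne_zero (NeZero.ne N)) (scal N) (coe_scal N)
  have h1 := tendsto_discriminant_div_q.comp hs
  have h2 := tendsto_discriminant_div_q.pow N
  have h3 := h1.div h2 (by simp)
  rw [one_pow, div_one] at h3
  refine h3.congr fun τ => ?_
  have hq : Function.Periodic.qParam 1 (τ : ℂ) ≠ 0 := by simp [Function.Periodic.qParam]
  have hqN : Function.Periodic.qParam 1 ((scal N τ : ℍ) : ℂ) =
      Function.Periodic.qParam 1 (τ : ℂ) ^ N := by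
    rw [coe_scal]
    simp only [Function.Periodic.qParam]
    rw [← Complex.exp_nat_mul]
    congr 1
    simp only [Complex.ofReal_one, div_one]
    ring
  simp only [Function.comp_apply, Pi.div_apply]
  rw [hqN, div_pow]
  have hΔ : Δ τ ≠ 0 := discriminant_ne_zero τ
  field_simp

end Fermat.Agent.MAZ.Klein
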