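import Fermat.Agent.MAZ.Ell.Tau

/-!
# MAZ / Klein / [K1]  the division values `e_{a,b}(τ) = ℘'((aτ+b)/N ; ℤ+ℤτ)`

Mathlib + `Ell/Scale`, `Ell/Tau`.

* `eN_congr`, `eN_neg`: periodicity / oddness of `℘'` (`PeriodPair.derivWeierstrassP_add_coe`,
  `derivWeierstrassP_neg`, `Ell.mem_lattice_tauPair`).
* `eN_smul`: with `μ := denom g τ = g₁₀ τ + g₁₁`: `(tauPair (g • τ)).lattice = (smulPair μ⁻¹ _ (tauPair τ)).lattice`
  (both are `μ⁻¹ (ℤ (g₀₀τ+g₀₁) + ℤ (g₁₀τ+g₁₁))`, `det g = 1`), then `Ell.wp'_congr`, `Ell.wp'_smulPair`: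
  `(a (gτ) + b)/N = μ⁻¹ ((a g₀₀ + b g₁₀) τ + (a g₀₁ + b g₁₁))/N`.
* `mdiff_eN`: `eN N a b τ = -2 N³ ∑_{(m,n) ∈ ℤ²} ((a - N m) τ + (b - N n))⁻³`
  (`PeriodPair.derivWeierstrassP`, reindex by `PeriodPair.latticeEquivProd`); every term is holomorphic on `ℍ`
  (the denominator does not vanish because `(a,b) ≢ 0`), and the series of norms converges locally
  uniformly (`EisensteinSeries.summand_bound_of_mem_verticalStrip`, `EisensteinSeries.summable_one_div_norm_rpow`,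
  as in `EisensteinSeries.eisensteinSeries_tendstoLocallyUniformly` /
  `eisensteinSeriesSIF_mdifferentiable`); injective reindexing `(m,n) ↦ (a - N m, b - N n)`.
-/

set_option autoImplicit false

open UpperHalfPlane
open scoped PeriodPair MatrixGroups Manifold

namespace Fermat.Agent.MAZ.Klein

open Fermat.Agent.MAZ.Ell

/-- `℘'` of the lattice `ℤ + ℤ τ` at the `N`-division point `(a τ + b)/N`. -/
noncomputable def eN (N : ℕ) (a b : ℤ) (τ : ℍ) : ℂ := ℘'[tauPair τ] (((a : ℂ) * τ + b) / N)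

variable (N : ℕ) [NeZero N]

theorem eN_congr {a a' b b' : ℤ} (ha : (N : ℤ) ∣ a - a') (hb : (N : ℤ) ∣ b - b') (τ : ℍ) :
    eN N a b τ = eN N a' b' τ := by
  obtain ⟨m, hm⟩ := ha
  obtain ⟨n, hn⟩ := hb
  have hN : (N : ℂ) ≠ 0 := Nat.cast_ne_zero.2 (NeZero.ne N)
  have hl : (m : ℂ) * τ + n ∈ (tauPair τ).lattice := mem_lattice_tauPair.2 ⟨m, n, rfl⟩
  have ha' : (a : ℂ) = a' + N * m := by
    have : a = a' + N * m := by linarith
    exact_mod_cast this
  have hb' : (b : ℂ) = b' + N * n := by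
    have : b = b' + N * n := by linarith
    exact_mod_cast this
  have e : ((a : ℂ) * τ + b) / N = ((a' : ℂ) * τ + b') / N +
      ((⟨(m : ℂ) * τ + n, hl⟩ : (tauPair τ).lattice) : ℂ) := by
    rw [ha', hb']
    field_simp
    ring
  unfold eN
  rw [e, PeriodPair.derivWeierstrassP_add_coe]

omit [NeZero N] in
theorem eN_neg (a b : ℤ) (τ : ℍ) : eN N (-a) (-b) τ = - eN N a b τ := by
  unfold eN
  rw [← PeriodPair.derivWeierstrassP_neg]
  congr 1
  push_cast
  ring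

namespace EisAux

theorem coe_smul_eq (g : SL(2, ℤ)) (τ : ℍ) :
    ((g • τ : ℍ) : ℂ) = ((g 0 0 : ℂ) * τ + g 0 1) / denom g τ := by
  rw [UpperHalfPlane.coe_specialLinearGroup_apply, ModularGroup.denom_apply]
  simp

theorem det_eq (g : SL(2, ℤ)) : g 0 0 * g 1 1 - g 0 1 * g 1 0 = 1 := by
  have := g.det_coe
  rwa [Matrix.det_fin_two] at this

theorem lattice_smul (g : SL(2, ℤ)) (τ : ℍ) :
    (tauPair (g • τ)).lattice =
      (smulPair (denom g τ)⁻¹ (inv_ne_zero (denom_ne_zero g τ)) (tauPair τ)).lattice := by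
  have hμ : denom g τ ≠ 0 := denom_ne_zero g τ
  have hμe : denom g τ = (g 1 0 : ℂ) * τ + g 1 1 := ModularGroup.denom_apply g τ
  have hdet : ((g 0 0 : ℤ) : ℂ) * g 1 1 - g 0 1 * g 1 0 = 1 := by exact_mod_cast det_eq g
  ext z
  have hz : z = (denom g τ)⁻¹ * (denom g τ * z) := by field_simp
  rw [mem_lattice_tauPair]
  conv_rhs => rw [hz, mem_lattice_smulPair, mem_lattice_tauPair]
  rw [coe_smul_eq]
  constructor
  · rintro ⟨m, n, rfl⟩
    refine ⟨m * g 0 0 + n * g 1 0, m * g 0 1 + n * g 1 1, ?_⟩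
    push_cast
    field_simp
    rw [hμe]
    ring
  · rintro ⟨m, n, h⟩
    refine ⟨m * g 1 1 - n * g 1 0, - m * g 0 1 + n * g 0 0, ?_⟩
    have h2 : z = (denom g τ)⁻¹ * ((m : ℂ) * τ + n) := by rw [h]; field_simp
    rw [h2]
    push_cast
    field_simp
    rw [hμe]
    linear_combination ((m : ℂ) * τ + n) * hdet

end EisAux

theorem eN_smul (a b : ℤ) (g : SL(2, ℤ)) (τ : ℍ) :
    eN N a b (g • τ) =
      denom g τ ^ 3 * eN N (a * g 0 0 + b * g 1 0) (a * g 0 1 + b * g 1 1) τ := by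
  have hμ : denom g τ ≠ 0 := denom_ne_zero g τ
  have hμe : denom g τ = (g 1 0 : ℂ) * τ + g 1 1 := ModularGroup.denom_apply g τ
  have hN : (N : ℂ) ≠ 0 := Nat.cast_ne_zero.2 (NeZero.ne N)
  unfold eN
  rw [wp'_congr (EisAux.lattice_smul g τ)]
  have e : ((a : ℂ) * ((g • τ : ℍ) : ℂ) + b) / N = (denom g τ)⁻¹ *
      ((((a * g 0 0 + b * g 1 0 : ℤ) : ℂ) * τ + ((a * g 0 1 + b * g 1 1 : ℤ) : ℂ)) / N) := by
    rw [EisAux.coe_smul_eq]
    push_cast
    field_simp
    rw [hμe]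
    ring
  rw [e, wp'_smulPair, inv_pow, inv_inv]

namespace EisAux

open EisensteinSeries Filter

/-- the index map `(m,n) ↦ (a - N n, b - N m)`. -/
def idx (N : ℕ) (a b : ℤ) (x : ℤ × ℤ) : Fin 2 → ℤ := ![a - N * x.2, b - N * x.1]

theorem idx_injective (a b : ℤ) : Function.Injective (idx N a b) := by
  intro x y h
  have hN : (N : ℤ) ≠ 0 := Nat.cast_ne_zero.2 (NeZero.ne N)
  have h0 := congrFun h 0
  have h1 := congrFun h 1
  simp only [idx, Matrix.cons_val_zero, Matrix.cons_val_one, sub_right_inj] at h0 h1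
  exact Prod.ext (mul_left_cancel₀ hN h1) (mul_left_cancel₀ hN h0)

/-- the series. -/
noncomputable def ser (N : ℕ) (a b : ℤ) (τ : ℍ) : ℂ := ∑' x : ℤ × ℤ, eisSummand 3 (idx N a b x) τ

theorem eN_eq_ser (a b : ℤ) (τ : ℍ) : eN N a b τ = - (2 * (N : ℂ) ^ 3) * ser N a b τ := by
  have hN : (N : ℂ) ≠ 0 := Nat.cast_ne_zero.2 (NeZero.ne N)
  unfold eN ser PeriodPair.derivWeierstrassP
  rw [← (tauPair τ).latticeEquivProd.symm.toEquiv.tsum_eq, neg_mul, ← tsum_mul_left]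
  congr 1
  refine tsum_congr fun x => ?_
  show 2 / (((a : ℂ) * τ + b) / N - (((tauPair τ).latticeEquivProd.symm x : (tauPair τ).lattice) : ℂ)) ^ 3 = _
  rw [PeriodPair.latticeEquiv_symm_apply]
  show 2 / (((a : ℂ) * τ + b) / N - ((x.1 : ℂ) * 1 + x.2 * τ)) ^ 3 = _
  have e : ((a : ℂ) * τ + b) / N - ((x.1 : ℂ) * 1 + x.2 * τ) =
      (((a - N * x.2 : ℤ) : ℂ) * τ + ((b - N * x.1 : ℤ) : ℂ)) / N := by
    push_cast
    field_simp
    ring
  rw [e, eisSummand, idx]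
  simp only [Matrix.cons_val_zero, Matrix.cons_val_one]
  rw [div_pow, zpow_neg, show (3 : ℤ) = ((3 : ℕ) : ℤ) from rfl, zpow_natCast]
  field_simp

theorem ser_tendstoLocallyUniformly (a b : ℤ) :
    TendstoLocallyUniformly (fun (s : Finset (ℤ × ℤ)) ↦ (∑ x ∈ s, eisSummand 3 (idx N a b x) ·))
      (ser N a b ·) Filter.atTop := by
  have hk' : (2 : ℝ) < (3 : ℤ) := by norm_num
  have p_sum : Summable fun x : ℤ × ℤ ↦ ‖idx N a b x‖ ^ (-(3 : ℤ)) :=
    mod_cast (summable_one_div_norm_rpow hk').comp_injective (idx_injective N a b)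
  simp only [tendstoLocallyUniformly_iff_forall_isCompact, ser]
  intro K hK
  obtain ⟨A, B, hB, HABK⟩ := subset_verticalStrip_of_isCompact hK
  refine (tendstoUniformlyOn_tsum (hu := p_sum.mul_left <| r ⟨⟨A, B⟩, hB⟩ ^ (-((3 : ℤ) : ℝ)))
    (fun p z hz ↦ ?_)).mono HABK
  simpa only [eisSummand, one_div, ← zpow_neg, norm_zpow, ← Real.rpow_intCast,
    Int.cast_neg] using summand_bound_of_mem_verticalStrip (k := ((3 : ℤ) : ℝ)) (by positivity)
      (idx N a b p) hB hz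

theorem ser_tendstoLocallyUniformlyOn (a b : ℤ) :
    TendstoLocallyUniformlyOn (fun (s : Finset (ℤ × ℤ)) ↦
      ↑ₕ(fun (z : ℍ) ↦ ∑ x ∈ s, eisSummand 3 (idx N a b x) z)) (↑ₕ(ser N a b))
          Filter.atTop {z : ℂ | 0 < z.im} := by
  rw [← upperHalfPlaneSet, ← range_coe, ← Set.image_univ]
  apply TendstoLocallyUniformlyOn.comp (s := ⊤) _ _ _ (OpenPartialHomeomorph.continuousOn_symm _)
  · simp only [Set.top_eq_univ, tendstoLocallyUniformlyOn_univ]
    apply ser_tendstoLocallyUniformly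
  · simp only [Topology.IsOpenEmbedding.toOpenPartialHomeomorph_target, Set.top_eq_univ,
      Set.mapsTo_range_iff, Set.mem_univ, forall_const]

theorem mdiff_ser (a b : ℤ) : MDiff (ser N a b) := by
  intro τ
  suffices DifferentiableAt ℂ (↑ₕ(ser N a b)) τ.1 by
    convert!
      MDifferentiableAt.comp τ (DifferentiableAt.mdifferentiableAt this) τ.mdifferentiable_coe
    exact funext fun z ↦ (comp_ofComplex (ser N a b) z).symm
  refine DifferentiableOn.differentiableAt ?_ (isOpen_upperHalfPlaneSet.mem_nhds τ.2)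
  exact (ser_tendstoLocallyUniformlyOn N a b).differentiableOn
    (Eventually.of_forall fun s ↦ DifferentiableOn.fun_sum
    fun _ _ ↦ eisSummand_extension_differentiableOn _ _) isOpen_upperHalfPlaneSet

end EisAux

theorem mdiff_eN (a b : ℤ) (_h : ¬ ((N : ℤ) ∣ a ∧ (N : ℤ) ∣ b)) : MDiff (eN N a b) := by
  have e : eN N a b = fun τ => - (2 * (N : ℂ) ^ 3) * EisAux.ser N a b τ :=
    funext fun τ => EisAux.eN_eq_ser N a b τ
  rw [e]
  exact (mdifferentiable_const).mul (EisAux.mdiff_ser N a b)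

end Fermat.Agent.MAZ.Klein
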