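import Mathlib

/-!
# MAZ / Klein / [K3]  the cyclotomic constant

`N` odd, `ζ = e^{2πi/N}`:  `∏_{k=1}^{N-1} ζ^k = 1`, `∏ (1 + ζ^k) = 1`, `∏ (1 - ζ^k) = N`
(evaluate `∏_{k=1}^{N-1} (X - ζ^k) = 1 + X + ... + X^{N-1}` at `X = 1`, `X = -1`;
Mathlib: `IsPrimitiveRoot`, `Polynomial.cyclotomic`, `X_pow_sub_one_eq_prod`, `Complex.isPrimitiveRoot_exp`).
-/

set_option autoImplicit false

open scoped Real

namespace Fermat.Agent.MAZ.Klein

open Finset Polynomial in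
/-- `∏_{k=1}^{n} (X - μ^k) = 1 + X + ... + X^n` for a primitive `(n+1)`-st root of unity. -/
theorem prod_X_sub_pow {R : Type*} [CommRing R] [IsDomain R] {n : ℕ} {μ : R}
    (hμ : IsPrimitiveRoot μ (n + 1)) :
    ∏ k ∈ range n, (X - C (μ ^ (k + 1))) = ∑ i ∈ range (n + 1), (X : R[X]) ^ i := by
  have := X_pow_sub_C_eq_prod hμ n.zero_lt_succ (one_pow (n + 1))
  rw [C_1, ← mul_geom_sum, prod_range_succ', pow_zero, mul_one, mul_comm, eq_comm] at this
  replace this := mul_right_cancel₀ (Polynomial.X_sub_C_ne_zero 1) this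
  simpa only [mul_one] using this

open Finset Polynomial in
theorem prod_pow_eq_one {R : Type*} [CommRing R] [IsDomain R] {n : ℕ} (hn : Even n) {μ : R}
    (hμ : IsPrimitiveRoot μ (n + 1)) : ∏ k ∈ range n, μ ^ (k + 1) = 1 := by
  have h := congrArg (Polynomial.eval 0) (prod_X_sub_pow hμ)
  simp only [eval_prod, eval_sub, eval_X, eval_C, eval_geom_sum, zero_sub] at h
  rw [Finset.prod_neg, card_range, hn.neg_one_pow, one_mul] at h
  rw [h, sum_range_succ']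
  simp

open Finset Polynomial in
theorem prod_one_add_pow_eq_one {R : Type*} [CommRing R] [IsDomain R] {n : ℕ} (hn : Even n)
    {μ : R} (hμ : IsPrimitiveRoot μ (n + 1)) : ∏ k ∈ range n, (1 + μ ^ (k + 1)) = 1 := by
  have h := congrArg (Polynomial.eval (-1)) (prod_X_sub_pow hμ)
  simp only [eval_prod, eval_sub, eval_X, eval_C, eval_geom_sum] at h
  have e : ∀ k ∈ range n, (-1 - μ ^ (k + 1)) = -(1 + μ ^ (k + 1)) := fun k _ => by ring
  rw [prod_congr rfl e, Finset.prod_neg, card_range, hn.neg_one_pow, one_mul] at h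
  rw [h, neg_one_geom_sum, if_neg]
  exact Nat.not_even_iff_odd.mpr hn.add_one

theorem prod_cyclo (N : ℕ) (hN : Odd N) :
    ∏ k ∈ Finset.Ico 1 N, (Complex.exp (2 * π * Complex.I * ((k : ℤ) : ℂ) / N) *
        (1 + Complex.exp (2 * π * Complex.I * ((k : ℤ) : ℂ) / N)) /
          (1 - Complex.exp (2 * π * Complex.I * ((k : ℤ) : ℂ) / N)) ^ 3) = ((N : ℂ) ^ 3)⁻¹ := by
  obtain ⟨m, rfl⟩ := hN
  have hn : Even (2 * m) := even_two_mul m
  have hμ : IsPrimitiveRoot (Complex.exp (2 * π * Complex.I / ((2 * m + 1 : ℕ) : ℂ))) (2 * m + 1) :=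
    Complex.isPrimitiveRoot_exp _ (by omega)
  set μ := Complex.exp (2 * π * Complex.I / ((2 * m + 1 : ℕ) : ℂ)) with hμd
  have e : ∀ k : ℕ, Complex.exp (2 * π * Complex.I * ((k : ℤ) : ℂ) / ((2 * m + 1 : ℕ) : ℂ))
      = μ ^ k := by
    intro k
    rw [hμd, ← Complex.exp_nat_mul]
    congr 1
    push_cast
    ring
  simp only [e]
  rw [Finset.prod_Ico_eq_prod_range]
  simp only [Nat.add_sub_cancel, add_comm 1]
  rw [Finset.prod_div_distrib, Finset.prod_mul_distrib, Finset.prod_pow, prod_pow_eq_one hn hμ,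
    prod_one_add_pow_eq_one hn hμ, hμ.prod_one_sub_pow_eq_order]
  push_cast
  simp

/-- the constant of Klein's formula. -/
theorem prod_const (N : ℕ) (hN : Odd N) :
    (N : ℂ) ^ 12 * (∏ k ∈ Finset.Ico 1 N, ((2 * π * Complex.I) ^ 3 *
      (Complex.exp (2 * π * Complex.I * ((k : ℤ) : ℂ) / N) *
        (1 + Complex.exp (2 * π * Complex.I * ((k : ℤ) : ℂ) / N)) /
          (1 - Complex.exp (2 * π * Complex.I * ((k : ℤ) : ℂ) / N)) ^ 3))) ^ 4 =
      (2 * (π : ℂ)) ^ (12 * (N - 1)) := by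
  rw [Finset.prod_mul_distrib, prod_cyclo N hN, Finset.prod_const, Nat.card_Ico]
  have hN0 : (N : ℂ) ≠ 0 := by
    have : N ≠ 0 := by
      rintro rfl
      simp at hN
    exact_mod_cast this
  have h1 : ((2 * (π : ℂ) * Complex.I) ^ 3) ^ 4 = (2 * (π : ℂ)) ^ 12 := by
    rw [← pow_mul, mul_pow]
    have : Complex.I ^ (3 * 4) = 1 := by
      rw [show 3 * 4 = 4 * 3 from rfl, pow_mul, Complex.I_pow_four, one_pow]
    rw [this, mul_one]
  calc (N : ℂ) ^ 12 * (((2 * (π : ℂ) * Complex.I) ^ 3) ^ (N - 1) * ((N : ℂ) ^ 3)⁻¹) ^ 4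
      = ((N : ℂ) ^ 12 * ((N : ℂ) ^ 12)⁻¹) * (((2 * (π : ℂ) * Complex.I) ^ 3) ^ 4) ^ (N - 1) := by
        rw [mul_pow, inv_pow, ← pow_mul, ← pow_mul, ← pow_mul, ← pow_mul, ← pow_mul]
        ring_nf
    _ = (2 * (π : ℂ)) ^ (12 * (N - 1)) := by
        rw [mul_inv_cancel₀ (pow_ne_zero _ hN0), one_mul, h1, ← pow_mul]

end Fermat.Agent.MAZ.Klein
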