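import Fermat.Agent.MAZ.Klein.QExp
import Fermat.Agent.MAZ.Klein.Prod
import Fermat.Agent.MAZ.Klein.Delta
import Fermat.Agent.MAZ.Klein.Const

/-!
# MAZ / Klein / [K6]  Klein's formula

`N¹² (∏_{k=1}^{N-1} ℘'(k/N; τ))⁴ Δ(Nτ) = (2π)^{12(N-1)} Δ(τ)^N`      (`N` an odd prime).

`R := kleinFun N` = LHS / RHS.
* holomorphic: `mdiff_eN`, `mdiff_delta_scal`, `Δ ≠ 0`.
* `kleinFun_smul_of_mem` (`g ∈ Γ₀(N)`): `eN_smul` gives `eN N 0 k (gτ) = μ³ eN N (k g₁₀) (k g₁₁) τ = μ³ eN N 0 (k g₁₁) τ`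
  (`eN_congr`, `N ∣ g₁₀`); `k ↦ k g₁₁ mod N` permutes `{1..N-1}` (`g₁₁` is a unit mod `N`); weights:
  `μ^{12(N-1)} · μ^{12} = μ^{12 N}` (`delta_scal_smul_of_mem`, `discriminant_smul`).
* `kleinFun_bounded_of_not_mem` (`N ∤ g₁₀`): `eN N 0 k (gτ) = μ³ eN N (k g₁₀) (k g₁₁) τ`, `k g₁₀ mod N` runs through
  `{1..N-1}`, `eN_bound`: `∏ ≤ C e^{-2π y (N²-1)/(4N)}` (`∑_{a=1}^{N-1} min(a, N-a) = (N²-1)/4`);
  `‖Δ(N gτ)‖ ≤ C ‖μ‖¹² e^{-2π y/N}`, `‖Δ(gτ)‖^N = ‖μ‖^{12N} ‖Δ τ‖^N ≥ c ‖μ‖^{12 N} e^{-2π N y}`; exponents: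
  `(N²-1)/N + 1/N - N = 0`.
* `kleinFun_tendsto`: `eN_tendsto`, `prod_const`, `delta_ratio_tendsto`.
* `klein`: `eq_const_of_bounded` + the limit.
-/

set_option autoImplicit false
set_option linter.unusedSectionVars false
set_option linter.unusedVariables false

open UpperHalfPlane ModularForm CongruenceSubgroup Filter Topology
open scoped MatrixGroups Manifold Real PeriodPair

namespace Fermat.Agent.MAZ.Klein

open Fermat.Agent.S24 Fermat.Agent.MAZ.Ell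

local notation "Δ" => ModularForm.discriminant

theorem prod_Ico_mul_perm {M : Type*} [CommMonoid M] (N : ℕ) (hN : N.Prime) (f : ℤ → M)
    (hf : ∀ a a' : ℤ, (N : ℤ) ∣ a - a' → f a = f a') (d : ℤ) (hd : ¬ (N : ℤ) ∣ d) :
    ∏ k ∈ Finset.Ico 1 N, f ((k : ℤ) * d) = ∏ k ∈ Finset.Ico 1 N, f (k : ℤ) := by
  classical
  have : Fact N.Prime := ⟨hN⟩
  have : NeZero N := ⟨hN.ne_zero⟩
  set F : ZMod N → M := fun c => f (c.val : ℤ) with hF
  have hfF : ∀ a : ℤ, f a = F (a : ZMod N) := by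
    intro a
    apply hf
    rw [← ZMod.intCast_eq_intCast_iff_dvd_sub]
    simp
  have key : ∀ G : ZMod N → M, ∏ k ∈ Finset.Ico 1 N, G ((k : ℕ) : ZMod N) =
      ∏ x ∈ Finset.univ.erase (0 : ZMod N), G x := by
    intro G
    refine Finset.prod_bij' (fun k _ => ((k : ℕ) : ZMod N)) (fun x _ => x.val) ?_ ?_ ?_ ?_ ?_
    · intro k hk
      rw [Finset.mem_Ico] at hk
      rw [Finset.mem_erase]
      refine ⟨?_, Finset.mem_univ _⟩
      rw [Ne, ZMod.natCast_eq_zero_iff]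
      exact Nat.not_dvd_of_pos_of_lt hk.1 hk.2
    · intro x hx
      rw [Finset.mem_erase] at hx
      rw [Finset.mem_Ico]
      exact ⟨Nat.pos_of_ne_zero (by rw [Ne, ZMod.val_eq_zero]; exact hx.1), ZMod.val_lt x⟩
    · intro k hk
      rw [Finset.mem_Ico] at hk
      exact ZMod.val_natCast_of_lt hk.2
    · intro x _
      exact ZMod.natCast_zmod_val x
    · intro k _
      rfl
  have hd' : (d : ZMod N) ≠ 0 := by
    rwa [Ne, ZMod.intCast_zmod_eq_zero_iff_dvd]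
  have e1 : ∏ k ∈ Finset.Ico 1 N, f ((k : ℤ) * d) =
      ∏ k ∈ Finset.Ico 1 N, (fun x : ZMod N => F (x * d)) ((k : ℕ) : ZMod N) := by
    refine Finset.prod_congr rfl fun k _ => ?_
    rw [hfF]
    push_cast
    rfl
  have e2 : ∏ k ∈ Finset.Ico 1 N, f (k : ℤ) = ∏ k ∈ Finset.Ico 1 N, F ((k : ℕ) : ZMod N) := by
    refine Finset.prod_congr rfl fun k _ => ?_
    rw [hfF]
    push_cast
    rfl
  rw [e1, e2, key F, key (fun x : ZMod N => F (x * d))]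
  refine Finset.prod_equiv (Equiv.mulRight₀ (d : ZMod N) hd') ?_ ?_
  · intro x
    simp [hd']
  · intro x _
    rfl

theorem sum_min_Ico (m : ℕ) :
    ∑ a ∈ Finset.Ico 1 (2 * m + 1), min (a : ℤ) (((2 * m + 1 : ℕ) : ℤ) - a) = (m : ℤ) * (m + 1) := by
  have h1 : ∑ a ∈ Finset.Ico 1 (m + 1), min (a : ℤ) (((2 * m + 1 : ℕ) : ℤ) - a) =
      ∑ a ∈ Finset.Ico 1 (m + 1), (a : ℤ) := by
    refine Finset.sum_congr rfl fun a ha => ?_
    rw [Finset.mem_Ico] at ha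
    apply min_eq_left
    push_cast; omega
  have h2 : ∑ a ∈ Finset.Ico (m + 1) (2 * m + 1), min (a : ℤ) (((2 * m + 1 : ℕ) : ℤ) - a) =
      ∑ a ∈ Finset.Ico (m + 1) (2 * m + 1), (((2 * m + 1 - a : ℕ)) : ℤ) := by
    refine Finset.sum_congr rfl fun a ha => ?_
    rw [Finset.mem_Ico] at ha
    rw [min_eq_right (by push_cast; omega)]
    push_cast [Nat.cast_sub ha.2.le]
    ring
  have h3 := Finset.sum_Ico_reflect (fun j : ℕ => (j : ℤ)) (m + 1) (m := 2 * m + 1) (n := 2 * m + 1)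
    (by omega)
  have h4 : ∀ k : ℕ, ∑ a ∈ Finset.Ico 1 (k + 1), (a : ℤ) * 2 = (k : ℤ) * (k + 1) := by
    intro k
    induction k with
    | zero => simp
    | succ k ih =>
      rw [Finset.sum_Ico_succ_top (by omega), ih]
      push_cast
      ring
  rw [← Finset.sum_Ico_consecutive _ (show 1 ≤ m + 1 by omega) (show m + 1 ≤ 2 * m + 1 by omega),
    h1, h2, h3]
  have h5 : 2 * m + 1 + 1 - (2 * m + 1) = 1 := by omega
  have h6 : 2 * m + 1 + 1 - (m + 1) = m + 1 := by omega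
  rw [h5, h6, ← h4, ← Finset.sum_add_distrib]
  refine Finset.sum_congr rfl fun a _ => ?_
  ring

variable (N : ℕ) [NeZero N]

/-- the quotient of the two sides of Klein's formula. -/
noncomputable def kleinFun (τ : ℍ) : ℂ :=
  (N : ℂ) ^ 12 * (∏ k ∈ Finset.Ico 1 N, eN N 0 (k : ℤ) τ) ^ 4 * Δ (scal N τ) /
    ((2 * (π : ℂ)) ^ (12 * (N - 1)) * Δ τ ^ N)

theorem not_dvd_of_mem_Ico {k : ℕ} (hk : k ∈ Finset.Ico 1 N) : ¬ (N : ℤ) ∣ (k : ℤ) := by
  rw [Finset.mem_Ico] at hk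
  intro h
  exact Nat.not_dvd_of_pos_of_lt hk.1 hk.2 (Int.natCast_dvd_natCast.1 h)

theorem two_pi_pow_ne_zero (n : ℕ) : (2 * (π : ℂ)) ^ n ≠ 0 :=
  pow_ne_zero _ (mul_ne_zero two_ne_zero (by exact_mod_cast Real.pi_ne_zero))

theorem mdiff_prod_eN : MDiff (fun τ : ℍ => ∏ k ∈ Finset.Ico 1 N, eN N 0 (k : ℤ) τ) := by
  have h : (∏ k ∈ Finset.Ico 1 N, (eN N 0 (k : ℤ) : ℍ → ℂ)) ∈ Hol :=
    Subalgebra.prod_mem _ fun k hk => mdiff_eN N 0 k (fun h => not_dvd_of_mem_Ico N hk h.2)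
  have e : (fun τ : ℍ => ∏ k ∈ Finset.Ico 1 N, eN N 0 (k : ℤ) τ) =
      ∏ k ∈ Finset.Ico 1 N, (eN N 0 (k : ℤ) : ℍ → ℂ) := by
    ext τ; rw [Finset.prod_apply]
  rw [e]; exact h

theorem mdiff_kleinFun (hN : N.Prime) : MDiff (kleinFun N) := by
  have h1 : MDiff (fun τ : ℍ =>
      (N : ℂ) ^ 12 * (∏ k ∈ Finset.Ico 1 N, eN N 0 (k : ℤ) τ) ^ 4 * Δ (scal N τ)) :=
    (mdifferentiable_const.mul ((mdiff_prod_eN N).pow 4)).mul (mdiff_delta_scal N)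
  have h2 : MDiff (fun τ : ℍ => (2 * (π : ℂ)) ^ (12 * (N - 1)) * Δ τ ^ N) :=
    mdifferentiable_const.mul (mdiff_discriminant.pow N)
  exact h1.div h2 fun τ =>
    mul_ne_zero (two_pi_pow_ne_zero _) (pow_ne_zero _ (discriminant_ne_zero τ))

/-- transformation of the product of the division values. -/
theorem prod_eN_smul (g : SL(2, ℤ)) (τ : ℍ) :
    ∏ k ∈ Finset.Ico 1 N, eN N 0 (k : ℤ) (g • τ) =
      denom g τ ^ (3 * (N - 1)) *
        ∏ k ∈ Finset.Ico 1 N, eN N ((k : ℤ) * g 1 0) ((k : ℤ) * g 1 1) τ := by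
  have h : ∀ k ∈ Finset.Ico 1 N, eN N 0 (k : ℤ) (g • τ) =
      denom g τ ^ 3 * eN N ((k : ℤ) * g 1 0) ((k : ℤ) * g 1 1) τ := by
    intro k _
    rw [eN_smul]
    simp
  rw [Finset.prod_congr rfl h, Finset.prod_mul_distrib, Finset.prod_const, Nat.card_Ico,
    ← pow_mul]

theorem discriminant_smul' (g : SL(2, ℤ)) (τ : ℍ) : Δ (g • τ) = denom g τ ^ 12 * Δ τ := by
  have := Fermat.Agent.Common.JPoly.discriminant_smul g τ
  rw [this]
  norm_cast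

theorem dvd_of_mem_Gamma0 {g : SL(2, ℤ)} : g ∈ Gamma0 N ↔ (N : ℤ) ∣ g 1 0 := by
  rw [Gamma0_mem, ZMod.intCast_zmod_eq_zero_iff_dvd]

theorem kleinFun_smul_of_mem (hN : N.Prime) {g : SL(2, ℤ)} (hg : g ∈ Gamma0 N) (τ : ℍ) :
    kleinFun N (g • τ) = kleinFun N τ := by
  have hg10 : (N : ℤ) ∣ g 1 0 := (dvd_of_mem_Gamma0 N).1 hg
  have hg11 : ¬ (N : ℤ) ∣ g 1 1 := by
    intro h
    have hdet := g.det_coe
    rw [Matrix.det_fin_two] at hdet
    have h1 : (N : ℤ) ∣ 1 := by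
      rw [← hdet]
      exact dvd_sub (Dvd.dvd.mul_left h _) (Dvd.dvd.mul_left hg10 _)
    have h2 := Int.natCast_dvd_natCast.1 (by simpa using h1 : (N : ℤ) ∣ ((1 : ℕ) : ℤ))
    exact hN.one_lt.ne' (Nat.dvd_one.1 h2)
  have hP : ∏ k ∈ Finset.Ico 1 N, eN N ((k : ℤ) * g 1 0) ((k : ℤ) * g 1 1) τ =
      ∏ k ∈ Finset.Ico 1 N, eN N 0 (k : ℤ) τ := by
    rw [← prod_Ico_mul_perm N hN (fun b => eN N 0 b τ)
      (fun a a' h => eN_congr N (by simp) h τ) (g 1 1) hg11]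
    refine Finset.prod_congr rfl fun k _ => ?_
    exact eN_congr N (by simpa using Dvd.dvd.mul_left hg10 _) (by simp) τ
  have hμ : denom g τ ≠ 0 := denom_ne_zero g τ
  obtain ⟨n, hn⟩ : ∃ n, N = n + 1 := ⟨N - 1, by have := hN.pos; omega⟩
  unfold kleinFun
  rw [prod_eN_smul, hP, delta_scal_smul_of_mem N hg, discriminant_smul']
  have e1 : (N : ℂ) ^ 12 * (denom g τ ^ (3 * (N - 1)) *
      ∏ k ∈ Finset.Ico 1 N, eN N 0 (k : ℤ) τ) ^ 4 * (denom g τ ^ 12 * Δ (scal N τ)) =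
      denom g τ ^ (12 * N) *
        ((N : ℂ) ^ 12 * (∏ k ∈ Finset.Ico 1 N, eN N 0 (k : ℤ) τ) ^ 4 * Δ (scal N τ)) := by
    have : 12 * N = 3 * (N - 1) * 4 + 12 := by omega
    rw [this, pow_add, pow_mul (denom g τ) (3 * (N - 1)) 4]
    ring
  have e2 : (2 * (π : ℂ)) ^ (12 * (N - 1)) * (denom g τ ^ 12 * Δ τ) ^ N =
      denom g τ ^ (12 * N) * ((2 * (π : ℂ)) ^ (12 * (N - 1)) * Δ τ ^ N) := by
    rw [mul_pow (denom g τ ^ 12) (Δ τ) N, ← pow_mul]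
    ring
  rw [e1, e2, mul_div_mul_left _ _ (pow_ne_zero _ hμ)]

/-- `min (a mod N) (N - a mod N)`. -/
def mN (a : ℤ) : ℤ := min (a % N) (N - a % N)

theorem mN_congr {a a' : ℤ} (h : (N : ℤ) ∣ a - a') : mN N a = mN N a' := by
  unfold mN
  rw [Int.emod_eq_emod_iff_emod_sub_eq_zero.2 (Int.emod_eq_zero_of_dvd h)]

theorem mN_of_mem_Ico {k : ℕ} (hk : k ∈ Finset.Ico 1 N) :
    mN N (k : ℤ) = min (k : ℤ) ((N : ℤ) - k) := by
  rw [Finset.mem_Ico] at hk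
  unfold mN
  rw [Int.emod_eq_of_lt (by positivity) (by exact_mod_cast hk.2)]

/-- the bound of the product of the division values at the cusp `0`. -/
theorem exists_prod_eN_bound (hN : N.Prime) {m : ℕ} (hm : N = 2 * m + 1) (c d : ℤ)
    (hc : ¬ (N : ℤ) ∣ c) :
    ∃ C : ℝ, ∀ τ : ℍ, 1 ≤ τ.im →
      ‖∏ k ∈ Finset.Ico 1 N, eN N ((k : ℤ) * c) ((k : ℤ) * d) τ‖ ≤
        C * Real.exp (-2 * π * ((m : ℝ) * (m + 1)) / N * τ.im) := by
  have hNpos : (0 : ℤ) < N := by exact_mod_cast hN.pos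
  have hprime : Prime (N : ℤ) := Nat.prime_iff_prime_int.1 hN
  have h1 : ∀ k ∈ Finset.Ico 1 N, ∃ C : ℝ, ∀ τ : ℍ, 1 ≤ τ.im →
      ‖eN N ((k : ℤ) * c) ((k : ℤ) * d) τ‖ ≤
        C * Real.exp (-2 * π * (mN N ((k : ℤ) * c) : ℤ) / N * τ.im) := by
    intro k hk
    have hkc : ¬ (N : ℤ) ∣ (k : ℤ) * c := by
      intro h
      rcases hprime.dvd_or_dvd h with h | h
      · exact not_dvd_of_mem_Ico N hk h
      · exact hc h
    have ha0 : 0 < ((k : ℤ) * c) % N := by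
      have h0 := Int.emod_nonneg ((k : ℤ) * c) hNpos.ne'
      rcases h0.lt_or_eq with h | h
      · exact h
      · exact absurd (Int.dvd_of_emod_eq_zero h.symm) hkc
    have haN : ((k : ℤ) * c) % N < N := Int.emod_lt_of_pos _ hNpos
    obtain ⟨C, hC⟩ := eN_bound N (((k : ℤ) * c) % N) ((k : ℤ) * d) ha0 haN
    refine ⟨C, fun τ hτ => ?_⟩
    have hdv : (N : ℤ) ∣ (k : ℤ) * c - ((k : ℤ) * c) % N :=
      ⟨((k : ℤ) * c) / N, by have := Int.emod_add_mul_ediv ((k : ℤ) * c) N; linarith⟩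
    have e : eN N ((k : ℤ) * c) ((k : ℤ) * d) τ = eN N (((k : ℤ) * c) % N) ((k : ℤ) * d) τ :=
      eN_congr N hdv (by simp) τ
    rw [e]
    exact hC τ hτ
  choose! C hC using h1
  refine ⟨∏ k ∈ Finset.Ico 1 N, C k, fun τ hτ => ?_⟩
  rw [norm_prod]
  calc ∏ k ∈ Finset.Ico 1 N, ‖eN N ((k : ℤ) * c) ((k : ℤ) * d) τ‖
      ≤ ∏ k ∈ Finset.Ico 1 N,
          (C k * Real.exp (-2 * π * (mN N ((k : ℤ) * c) : ℤ) / N * τ.im)) :=
        Finset.prod_le_prod (fun _ _ => norm_nonneg _) fun k hk => hC k hk τ hτ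
    _ = (∏ k ∈ Finset.Ico 1 N, C k) *
          ∏ k ∈ Finset.Ico 1 N, Real.exp (-2 * π * (mN N ((k : ℤ) * c) : ℤ) / N * τ.im) :=
        Finset.prod_mul_distrib
    _ = _ := by
        congr 1
        rw [prod_Ico_mul_perm N hN (fun a => Real.exp (-2 * π * (mN N a : ℤ) / N * τ.im))
          (fun a a' h => by rw [mN_congr N h]) c hc, ← Real.exp_sum]
        congr 1
        have hs : ∑ k ∈ Finset.Ico 1 N, ((mN N (k : ℤ) : ℤ) : ℝ) = (m : ℝ) * (m + 1) := by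
          have h2 := sum_min_Ico m
          rw [← hm] at h2
          have h3 : ∑ k ∈ Finset.Ico 1 N, mN N (k : ℤ) = (m : ℤ) * (m + 1) := by
            rw [← h2]
            exact Finset.sum_congr rfl fun k hk => mN_of_mem_Ico N hk
          have h4 := congrArg (Int.cast : ℤ → ℝ) h3
          push_cast at h4
          exact h4
        rw [← hs, Finset.mul_sum, Finset.sum_div, Finset.sum_mul]

theorem im_ofComplex_add_div (τ : ℍ) (j : ℤ) :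
    (ofComplex (((τ : ℂ) + j) / N)).im = τ.im / N := by
  have hN0 : (0 : ℝ) < N := by exact_mod_cast Nat.pos_of_ne_zero (NeZero.ne N)
  have him : (((τ : ℂ) + j) / N).im = τ.im / N := by
    have : ((τ : ℂ) + j) / N = (((τ : ℂ) + j)) / ((N : ℝ) : ℂ) := by simp
    rw [this, Complex.div_ofReal_im]
    simp
  have hpos : 0 < (((τ : ℂ) + j) / N).im := by
    rw [him]; exact div_pos τ.im_pos hN0
  rw [ofComplex_apply_of_im_pos hpos]
  exact him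

theorem kleinFun_bounded_of_not_mem (hN : N.Prime) (h2 : N ≠ 2) {g : SL(2, ℤ)}
    (hg : g ∉ Gamma0 N) : IsBoundedAtImInfty (fun τ => kleinFun N (g • τ)) := by
  have hg10 : ¬ (N : ℤ) ∣ g 1 0 := fun h => hg ((dvd_of_mem_Gamma0 N).2 h)
  obtain ⟨m, hm⟩ : ∃ m, N = 2 * m + 1 := by
    rcases hN.eq_two_or_odd' with h | h
    · exact absurd h h2
    · exact h
  have hN0 : (0 : ℝ) < N := by exact_mod_cast hN.pos
  have hNC : (N : ℂ) ≠ 0 := by exact_mod_cast hN.ne_zero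
  obtain ⟨CP, hCP⟩ := exists_prod_eN_bound N hN hm (g 1 0) (g 1 1) hg10
  obtain ⟨j, hj⟩ := delta_scal_smul_of_not_mem N hN hg
  obtain ⟨c, CD, A, hc, hΔ⟩ := delta_norm_bounds
  rw [isBoundedAtImInfty_iff]
  refine ⟨CP ^ 4 * CD / ((2 * π) ^ (12 * (N - 1)) * c ^ N), max 1 (max A (N * A)), fun τ hτ => ?_⟩
  have hτ1 : 1 ≤ τ.im := le_trans (le_max_left _ _) hτ
  have hτA : A ≤ τ.im := le_trans (le_trans (le_max_left _ _) (le_max_right _ _)) hτ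
  have hτNA : A ≤ (ofComplex (((τ : ℂ) + j) / N)).im := by
    rw [im_ofComplex_add_div, le_div_iff₀ hN0, mul_comm]
    exact le_trans (le_trans (le_max_right _ _) (le_max_right _ _)) hτ
  set P := ∏ k ∈ Finset.Ico 1 N, eN N ((k : ℤ) * g 1 0) ((k : ℤ) * g 1 1) τ with hP
  set D' := Δ (ofComplex (((τ : ℂ) + j) / N)) with hD'
  have hμ : denom g τ ≠ 0 := denom_ne_zero g τ
  have hform : kleinFun N (g • τ) = P ^ 4 * D' / ((2 * (π : ℂ)) ^ (12 * (N - 1)) * Δ τ ^ N) := by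
    unfold kleinFun
    rw [prod_eN_smul, hj τ, discriminant_smul']
    have e1 : (N : ℂ) ^ 12 * (denom g τ ^ (3 * (N - 1)) * P) ^ 4 *
        ((denom g τ / N) ^ 12 * D') = denom g τ ^ (12 * N) * (P ^ 4 * D') := by
      have : 12 * N = 3 * (N - 1) * 4 + 12 := by have := hN.pos; omega
      rw [this, pow_add, pow_mul (denom g τ) (3 * (N - 1)) 4, div_pow]
      field_simp
    have e2 : (2 * (π : ℂ)) ^ (12 * (N - 1)) * (denom g τ ^ 12 * Δ τ) ^ N =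
        denom g τ ^ (12 * N) * ((2 * (π : ℂ)) ^ (12 * (N - 1)) * Δ τ ^ N) := by
      rw [mul_pow (denom g τ ^ 12) (Δ τ) N, ← pow_mul]
      ring
    rw [e1, e2, mul_div_mul_left _ _ (pow_ne_zero _ hμ)]
  set E1 := Real.exp (-2 * π * ((m : ℝ) * (m + 1)) / N * τ.im) with hE1
  set E2 := Real.exp (-2 * π * (ofComplex (((τ : ℂ) + j) / N)).im) with hE2
  set E3 := Real.exp (-2 * π * τ.im) with hE3
  have hE : E1 ^ 4 * E2 = E3 ^ N := by
    rw [hE1, hE2, hE3, ← Real.exp_nat_mul, ← Real.exp_nat_mul, ← Real.exp_add,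
      im_ofComplex_add_div]
    congr 1
    have hNm : (N : ℝ) = 2 * m + 1 := by exact_mod_cast hm
    field_simp
    rw [hNm]
    ring
  have hb1 : ‖P‖ ≤ CP * E1 := hCP τ hτ1
  have hb2 : ‖D'‖ ≤ CD * E2 := (hΔ _ hτNA).2
  have hb3 : c * E3 ≤ ‖Δ τ‖ := (hΔ τ hτA).1
  have hE3pos : 0 < E3 := Real.exp_pos _
  have hπ : (0 : ℝ) < (2 * π) ^ (12 * (N - 1)) := by positivity
  show ‖kleinFun N (g • τ)‖ ≤ _
  rw [hform, norm_div, norm_mul, norm_mul, norm_pow, norm_pow, norm_pow, norm_mul]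
  have hn2 : ‖(2 : ℂ)‖ * ‖(π : ℂ)‖ = 2 * π := by
    rw [Complex.norm_real, Real.norm_of_nonneg Real.pi_pos.le]; simp
  rw [hn2]
  have hden : (2 * π) ^ (12 * (N - 1)) * (c * E3) ^ N ≤ (2 * π) ^ (12 * (N - 1)) * ‖Δ τ‖ ^ N :=
    mul_le_mul_of_nonneg_left (pow_le_pow_left₀ (mul_pos hc hE3pos).le hb3 _) hπ.le
  have hnum : ‖P‖ ^ 4 * ‖D'‖ ≤ (CP * E1) ^ 4 * (CD * E2) :=
    mul_le_mul (pow_le_pow_left₀ (norm_nonneg _) hb1 _) hb2 (norm_nonneg _)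
      (pow_nonneg (le_trans (norm_nonneg _) hb1) _)
  have hdpos : 0 < (2 * π) ^ (12 * (N - 1)) * (c * E3) ^ N :=
    mul_pos hπ (pow_pos (mul_pos hc hE3pos) _)
  calc ‖P‖ ^ 4 * ‖D'‖ / ((2 * π) ^ (12 * (N - 1)) * ‖Δ τ‖ ^ N)
      ≤ (CP * E1) ^ 4 * (CD * E2) / ((2 * π) ^ (12 * (N - 1)) * (c * E3) ^ N) :=
        div_le_div₀ (le_trans (mul_nonneg (pow_nonneg (norm_nonneg _) _) (norm_nonneg _)) hnum)
          hnum hdpos hden
    _ = CP ^ 4 * CD * (E1 ^ 4 * E2) / ((2 * π) ^ (12 * (N - 1)) * c ^ N * E3 ^ N) := by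
        rw [mul_pow, mul_pow]; ring
    _ = _ := by
        rw [hE, mul_div_mul_right _ _ (pow_pos hE3pos N).ne']

theorem kleinFun_tendsto (hN : N.Prime) (h2 : N ≠ 2) :
    Tendsto (kleinFun N) atImInfty (𝓝 1) := by
  have hodd : Odd N := hN.eq_two_or_odd'.resolve_left h2
  have h1 : Tendsto (fun τ : ℍ => ∏ k ∈ Finset.Ico 1 N, eN N 0 (k : ℤ) τ) atImInfty
      (𝓝 (∏ k ∈ Finset.Ico 1 N, ((2 * π * Complex.I) ^ 3 *
      (Complex.exp (2 * π * Complex.I * ((k : ℤ) : ℂ) / N) *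
        (1 + Complex.exp (2 * π * Complex.I * ((k : ℤ) : ℂ) / N)) /
          (1 - Complex.exp (2 * π * Complex.I * ((k : ℤ) : ℂ) / N)) ^ 3)))) :=
    tendsto_finsetProd _ fun k hk => eN_tendsto N (k : ℤ) (not_dvd_of_mem_Ico N hk)
  have h3 := ((h1.pow 4).const_mul ((N : ℂ) ^ 12)).div_const ((2 * (π : ℂ)) ^ (12 * (N - 1)))
  rw [prod_const N hodd, div_self (two_pi_pow_ne_zero _)] at h3
  have h4 := h3.mul (delta_ratio_tendsto N)
  rw [one_mul] at h4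
  refine h4.congr fun τ => ?_
  unfold kleinFun
  rw [div_mul_div_comm]

theorem kleinFun_eq_one (hN : N.Prime) (h2 : N ≠ 2) (τ : ℍ) : kleinFun N τ = 1 := by
  set f : Hol := ⟨kleinFun N, mdiff_kleinFun N hN⟩ with hf
  have hinv : ∀ γ ∈ Gamma0 N, actHol γ f = f := by
    intro γ hγ
    apply Subtype.ext
    funext z
    rw [actHol_apply]
    exact kleinFun_smul_of_mem N hN (inv_mem hγ) z
  have hb : ∀ g : SL(2, ℤ), IsBoundedAtImInfty ((actHol g f : Hol) : ℍ → ℂ) := by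
    intro g
    have e : ((actHol g f : Hol) : ℍ → ℂ) = fun z => kleinFun N (g⁻¹ • z) := by
      funext z
      rw [actHol_apply]
    rw [e]
    by_cases hg : g⁻¹ ∈ Gamma0 N
    · have e2 : (fun z => kleinFun N (g⁻¹ • z)) = kleinFun N := by
        funext z
        exact kleinFun_smul_of_mem N hN hg z
      rw [e2]
      exact (kleinFun_tendsto N hN h2).isBigO_one ℝ
    · exact kleinFun_bounded_of_not_mem N hN h2 hg
  obtain ⟨c, hc⟩ := eq_const_of_bounded N f hinv hb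
  have hc' : ∀ z, kleinFun N z = c := hc
  have h3 : Tendsto (kleinFun N) atImInfty (𝓝 c) := by
    have : kleinFun N = fun _ => c := funext hc'
    rw [this]
    exact tendsto_const_nhds
  rw [hc', tendsto_nhds_unique h3 (kleinFun_tendsto N hN h2)]

/-- **Klein's formula.** -/
theorem klein (hN : N.Prime) (h2 : N ≠ 2) (τ : ℍ) :
    (N : ℂ) ^ 12 * (∏ k ∈ Finset.Ico 1 N, ℘'[tauPair τ] ((k : ℂ) / N)) ^ 4 * Δ (scal N τ) =
      (2 * (π : ℂ)) ^ (12 * (N - 1)) * Δ τ ^ N := by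
  have h := kleinFun_eq_one N hN h2 τ
  unfold kleinFun at h
  rw [div_eq_one_iff_eq
    (mul_ne_zero (two_pi_pow_ne_zero _) (pow_ne_zero _ (discriminant_ne_zero τ)))] at h
  rw [← h]
  congr 3
  refine Finset.prod_congr rfl fun k _ => ?_
  unfold eN
  simp

end Fermat.Agent.MAZ.Klein
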