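import Fermat.Agent.MAZ.Klein.Eis

/-!
# MAZ / Klein / [K2]  behaviour of `e_{a,b}(τ)` as `Im τ → ∞`

`℘'(z; τ) = -2 ∑_{m ∈ ℤ} ∑_{n ∈ ℤ} (z + mτ + n)⁻³` (Fubini for the absolutely convergent double series),
and the Lipschitz formula (Mathlib: `EisensteinSeries.qExpansion_identity`, `k = 2`)
`∑_n (w + n)⁻³ = ((-2πi)³/2) ∑_{d ≥ 1} d² e^{2πi d w}` for `Im w > 0`;   for `Im w < 0` use `w ↦ -w`.

* `eN_bound` (`0 < a < N`, `z = (aτ+b)/N`): the rows `m ≥ 0` have `Im (z + mτ) = (m + a/N) y > 0`, the rows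
  `m ≤ -1` have `Im = -(|m| - a/N) y < 0`.  With `t := e^{-2π y/N}` (`y = Im τ ≥ 1`):
  `‖row m‖ ≤ 4π³ ∑_d d² t^{d (N m + a)}` resp. `t^{d(N|m| - a)}`, and
  `∑_{d ≥ 1} d² s^d ≤ C₀ s` for `0 ≤ s ≤ e^{-2π/N}`;  geometric sum over `m`.
* `eN_tendsto` (`a = 0`, `N ∤ b`): the rows `m ≠ 0` tend to `0` by the same estimate; the row `m = 0` is the
  constant `-2 ∑_n (b/N + n)⁻³`.  Its value: both sides of
  `∑_n (w + n)⁻³ = ((-2πi)³/2) q(1+q)/(1-q)³`, `q = e^{2πi w}` (`∑ d² q^d = q(1+q)/(1-q)³`, `|q| < 1`)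
  are continuous at `w = b/N ∉ ℤ`; let `w = b/N + i ε`, `ε → 0⁺`.
  (Alternative: differentiate twice `π cot(π w) = ∑ ...`, `cot_series_rep`.)
  `-2 · (-2πi)³/2 = (2πi)³`.
-/

set_option autoImplicit false

open UpperHalfPlane Filter Topology
open scoped Real PeriodPair

namespace Fermat.Agent.MAZ.Klein

namespace QAux

open Fermat.Agent.MAZ.Ell

/-- `Φ(q) = q (1 + q) / (1 - q)³ = ∑ d² q^d` -/
noncomputable def Phi (q : ℂ) : ℂ := q * (1 + q) / (1 - q) ^ 3

/-- `e(w) = exp (2 π i w)` -/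
noncomputable def ee (w : ℂ) : ℂ := Complex.exp (2 * π * Complex.I * w)

theorem hasSum_sq_mul_pow {q : ℂ} (hq : ‖q‖ < 1) :
    HasSum (fun d : ℕ => (d : ℂ) ^ 2 * q ^ d) (Phi q) := by
  have h2 := hasSum_choose_mul_geometric_of_norm_lt_one 2 hq
  have h1 := hasSum_choose_mul_geometric_of_norm_lt_one 1 hq
  have h0 := hasSum_choose_mul_geometric_of_norm_lt_one 0 hq
  have h := ((h2.mul_left 2).sub (h1.mul_left 3)).add h0
  have hne : (1 - q) ≠ 0 := by
    intro h0
    have : q = 1 := by linear_combination -h0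
    rw [this] at hq
    simp at hq
  have hf : (fun d : ℕ => (d : ℂ) ^ 2 * q ^ d) = fun b : ℕ =>
      2 * (((b + 2).choose 2 : ℕ) * q ^ b) - 3 * (((b + 1).choose 1 : ℕ) * q ^ b) +
        ((b + 0).choose 0 : ℕ) * q ^ b := by
    funext d
    have e2 : ((Nat.choose (d + 2) 2 : ℕ) : ℂ) = ((d : ℂ) + 2) * ((d : ℂ) + 1) / 2 := by
      rw [Nat.cast_choose_two]
      push_cast
      ring
    rw [e2]
    simp only [Nat.choose_one_right, Nat.choose_zero_right]
    push_cast
    ring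
  have hv : Phi q = 2 * (1 / (1 - q) ^ (2 + 1)) - 3 * (1 / (1 - q) ^ (1 + 1)) +
      1 / (1 - q) ^ (0 + 1) := by
    unfold Phi
    field_simp
    ring
  rw [hf, hv]
  exact h

theorem Phi_inv {q : ℂ} (hq : q ≠ 0) : Phi q⁻¹ = - Phi q := by
  rw [Phi, Phi]
  by_cases h1 : q = 1
  · subst h1; simp
  have hne : (1 - q) ≠ 0 := sub_ne_zero.mpr (Ne.symm h1)
  have hne' : (1 - q⁻¹) ≠ 0 := by
    intro h
    apply h1
    have : q⁻¹ = 1 := by linear_combination -h
    rw [inv_eq_one] at this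
    exact this
  have hne'' : q - 1 ≠ 0 := sub_ne_zero.mpr h1
  have e : (1 - q⁻¹) = (q - 1) / q := by field_simp
  rw [e]
  field_simp
  ring

theorem ee_neg (w : ℂ) : ee (-w) = (ee w)⁻¹ := by
  rw [ee, ee, ← Complex.exp_neg]; congr 1; ring

theorem ee_ne_zero (w : ℂ) : ee w ≠ 0 := Complex.exp_ne_zero _

theorem norm_ee (w : ℂ) : ‖ee w‖ = Real.exp (-2 * π * w.im) := by
  rw [ee, Complex.norm_exp]
  congr 1
  simp [Complex.mul_re, Complex.mul_im]

theorem summable_row (w : ℂ) : Summable fun n : ℤ => 1 / (w + n) ^ 3 := by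
  have := EisensteinSeries.linear_right_summable w 1 (k := 3) (by norm_num)
  refine this.congr (fun n => ?_)
  simp only [Int.cast_one, one_mul, one_div]
  norm_cast

/-- the row -/
noncomputable def row (w : ℂ) : ℂ := ∑' n : ℤ, 1 / (w + n) ^ 3

theorem row_neg (w : ℂ) : row (-w) = - row w := by
  rw [row, row, ← tsum_neg, ← (Equiv.neg ℤ).tsum_eq]
  refine tsum_congr (fun n => ?_)
  simp only [Equiv.neg_apply, Int.cast_neg]
  rw [show -w + -(n : ℂ) = -(w + n) by ring, Odd.neg_pow (by decide), one_div, one_div, inv_neg]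

theorem row_of_im_pos {w : ℂ} (hw : 0 < w.im) :
    row w = (-2 * π * Complex.I) ^ 3 / 2 * Phi (ee w) := by
  have h := EisensteinSeries.qExpansion_identity (k := 2) (by norm_num) ⟨w, hw⟩
  have hq : ‖ee w‖ < 1 := by
    rw [norm_ee, Real.exp_lt_one_iff]
    have := Real.pi_pos
    nlinarith
  rw [row]
  rw [show (2 + 1 : ℕ) = 3 by norm_num] at h
  rw [h, ← (hasSum_sq_mul_pow hq).tsum_eq]
  simp [ee, Nat.factorial]

theorem row_of_im_neg {w : ℂ} (hw : w.im < 0) :
    row w = (-2 * π * Complex.I) ^ 3 / 2 * Phi (ee w) := by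
  have h1 : row w = - row (-w) := by rw [row_neg, neg_neg]
  rw [h1, row_of_im_pos (w := -w) (by simpa using hw), ee_neg, Phi_inv (ee_ne_zero w)]
  ring

theorem ee_ne_one {w : ℂ} (hw : ∀ n : ℤ, w ≠ n) : ee w ≠ 1 := by
  intro h
  rw [ee, Complex.exp_eq_one_iff] at h
  obtain ⟨n, hn⟩ := h
  apply hw n
  have h2 : (2 * π * Complex.I : ℂ) ≠ 0 := by
    simp [Real.pi_ne_zero]
  apply mul_left_cancel₀ h2
  rw [hn]; ring

theorem continuous_ee : Continuous ee := by
  unfold ee
  fun_prop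

theorem continuousAt_Phi {q : ℂ} (hq : q ≠ 1) : ContinuousAt Phi q := by
  unfold Phi
  have : (1 - q) ^ 3 ≠ 0 := pow_ne_zero _ (sub_ne_zero.mpr (Ne.symm hq))
  fun_prop (disch := assumption)

theorem row_of_im_zero {w : ℂ} (him : w.im = 0) (hw : ∀ n : ℤ, w ≠ n) :
    row w = (-2 * π * Complex.I) ^ 3 / 2 * Phi (ee w) := by
  have hre : ∀ n : ℤ, w.re + n ≠ 0 := by
    intro n h
    apply hw (-n)
    apply Complex.ext
    · simp; linarith
    · simp [him]
  have hne : ∀ (n : ℤ) (ε : ℝ), w + ε * Complex.I + n ≠ 0 := by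
    intro n ε h
    apply hre n
    have := congrArg Complex.re h
    simpa using this
  have hg : Continuous fun ε : ℝ => row (w + ε * Complex.I) := by
    unfold row
    refine continuous_tsum (u := fun n : ℤ => ‖1 / (w + n) ^ 3‖) (fun n => ?_)
      (summable_row w).norm (fun n ε => ?_)
    · have : ∀ ε : ℝ, (w + ε * Complex.I + n) ^ 3 ≠ 0 := fun ε => pow_ne_zero _ (hne n ε)
      fun_prop (disch := assumption)
    · rw [norm_div, norm_div, norm_pow, norm_pow, norm_one]
      have h0 : 0 < ‖w + n‖ := by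
        rw [norm_pos_iff]
        have := hne n 0
        simpa using this
      have h1 : ‖w + n‖ ≤ ‖w + ε * Complex.I + n‖ := by
        have e1 : ‖w + n‖ = |w.re + n| := by
          have : w + n = ((w.re + n : ℝ) : ℂ) := by
            apply Complex.ext
            · simp
            · simp [him]
          rw [this, Complex.norm_real, Real.norm_eq_abs]
        rw [e1]
        have := Complex.abs_re_le_norm (w + ε * Complex.I + n)
        simpa using this
      gcongr
  have hh : ContinuousAt (fun ε : ℝ => (-2 * π * Complex.I) ^ 3 / 2 *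
      Phi (ee (w + ε * Complex.I))) 0 := by
    have h1 : ContinuousAt (fun ε : ℝ => ee (w + ε * Complex.I)) 0 := by
      apply Continuous.continuousAt
      exact continuous_ee.comp (by fun_prop)
    have h2 : ContinuousAt Phi (ee (w + ((0 : ℝ) : ℂ) * Complex.I)) := by
      apply continuousAt_Phi
      simpa using ee_ne_one hw
    exact continuousAt_const.mul (ContinuousAt.comp (f := fun ε : ℝ => ee (w + ε * Complex.I)) h2 h1)
  have h1 : Tendsto (fun ε : ℝ => row (w + ε * Complex.I)) (𝓝[>] 0) (𝓝 (row w)) := by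
    have := (hg.tendsto 0).mono_left (nhdsWithin_le_nhds (s := Set.Ioi 0))
    simpa using this
  have h2 : Tendsto (fun ε : ℝ => row (w + ε * Complex.I)) (𝓝[>] 0)
      (𝓝 ((-2 * π * Complex.I) ^ 3 / 2 * Phi (ee w))) := by
    have := (hh.tendsto).mono_left (nhdsWithin_le_nhds (s := Set.Ioi 0))
    simp only [Complex.ofReal_zero, zero_mul, add_zero] at this
    refine this.congr' ?_
    filter_upwards [self_mem_nhdsWithin] with ε hε
    rw [row_of_im_pos]
    simpa [him] using hε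
  exact tendsto_nhds_unique h1 h2

theorem row_eq {w : ℂ} (hw : ∀ n : ℤ, w ≠ n) :
    row w = (-2 * π * Complex.I) ^ 3 / 2 * Phi (ee w) := by
  rcases lt_trichotomy w.im 0 with h | h | h
  · exact row_of_im_neg h
  · exact row_of_im_zero h hw
  · exact row_of_im_pos h

theorem hasSum_rows (τ : ℍ) (z : ℂ) :
    HasSum (fun m : ℤ => -2 * row (z - m * τ)) (℘'[tauPair τ] z) := by
  have h := (tauPair τ).hasSum_derivWeierstrassP z
  have h1 := ((tauPair τ).latticeEquivProd.symm.toEquiv.hasSum_iff).mpr h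
  have h2 := ((Equiv.prodComm ℤ ℤ).hasSum_iff).mpr h1
  refine h2.prod_fiberwise (fun m => ?_)
  have h3 := ((summable_row (z - m * τ)).hasSum.mul_left (-2))
  have h4 := ((Equiv.neg ℤ).hasSum_iff).mpr h3
  refine h4.congr_fun ?_ 
  intro n
  simp only [Function.comp_apply, Equiv.prodComm_apply, Prod.swap_prod_mk,
    LinearEquiv.coe_toEquiv, PeriodPair.latticeEquiv_symm_apply, Equiv.neg_apply, Int.cast_neg]
  have e : z - ((n : ℂ) * (tauPair τ).ω₁ + (m : ℂ) * (tauPair τ).ω₂) = z - m * τ + -(n : ℂ) := by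
    simp only [tauPair]
    ring
  rw [e]
  ring

theorem hasSum_Phi (τ : ℍ) {z : ℂ} (hz : ∀ m n : ℤ, z ≠ m * τ + n) :
    HasSum (fun m : ℤ => (2 * π * Complex.I) ^ 3 * Phi (ee (z - m * τ))) (℘'[tauPair τ] z) := by
  refine (hasSum_rows τ z).congr_fun ?_
  intro m
  rw [row_eq (w := z - m * τ) (fun n h => hz m n (by rw [← h]; ring))]
  ring

theorem norm_Phi_le {s₀ : ℝ} (hs₀ : s₀ < 1) {u : ℂ} (hu : ‖u‖ ≤ s₀) :
    ‖Phi u‖ ≤ 2 / (1 - s₀) ^ 3 * ‖u‖ := by
  have h1 : ‖1 + u‖ ≤ 2 := by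
    calc ‖1 + u‖ ≤ ‖(1 : ℂ)‖ + ‖u‖ := norm_add_le _ _
      _ ≤ 2 := by rw [norm_one]; linarith
  have h2 : 1 - s₀ ≤ ‖1 - u‖ := by
    have := norm_sub_norm_le (1 : ℂ) u
    rw [norm_one] at this
    linarith
  have h3 : 0 < 1 - s₀ := by linarith
  rw [Phi, norm_div, norm_mul, norm_pow]
  calc ‖u‖ * ‖1 + u‖ / ‖1 - u‖ ^ 3 ≤ ‖u‖ * 2 / (1 - s₀) ^ 3 := by gcongr
    _ = 2 / (1 - s₀) ^ 3 * ‖u‖ := by ring

theorem norm_Phi_ee_le {δ : ℝ} (hδ : 0 < δ) {w : ℂ} (hw : δ ≤ |w.im|) :
    ‖Phi (ee w)‖ ≤ 2 / (1 - Real.exp (-2 * π * δ)) ^ 3 * Real.exp (-2 * π * |w.im|) := by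
  have hπ := Real.pi_pos
  have hs : Real.exp (-2 * π * δ) < 1 := by
    rw [Real.exp_lt_one_iff]
    nlinarith
  have key : ∀ v : ℂ, δ ≤ v.im →
      ‖Phi (ee v)‖ ≤ 2 / (1 - Real.exp (-2 * π * δ)) ^ 3 * Real.exp (-2 * π * v.im) := by
    intro v hv
    have h1 : ‖ee v‖ ≤ Real.exp (-2 * π * δ) := by
      rw [norm_ee, Real.exp_le_exp]
      nlinarith
    have := norm_Phi_le hs h1
    rwa [norm_ee] at this
  rcases le_total 0 w.im with h | h
  · rw [abs_of_nonneg h] at hw ⊢
    exact key w hw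
  · rw [abs_of_nonpos h] at hw ⊢
    have h1 := key (-w) (by simpa using hw)
    rw [ee_neg, Phi_inv (ee_ne_zero w), norm_neg] at h1
    simpa using h1

theorem summable_exp_abs : Summable fun m : ℤ => Real.exp (-2 * π * |(m : ℝ)|) := by
  have hπ := Real.pi_pos
  have h : Summable fun n : ℕ => Real.exp (-2 * π * (n : ℝ)) := by
    have := Real.summable_exp_nat_mul_iff (a := -2 * π) |>.mpr (by linarith)
    refine this.congr (fun n => ?_)
    rw [mul_comm]
  refine Summable.of_nat_of_neg ?_ ?_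
  · refine h.congr (fun n => ?_)
    simp
  · refine h.congr (fun n => ?_)
    simp

end QAux

open QAux Fermat.Agent.MAZ.Ell

variable (N : ℕ) [NeZero N]

theorem eN_bound (a b : ℤ) (ha0 : 0 < a) (haN : a < N) :
    ∃ C : ℝ, ∀ τ : ℍ, 1 ≤ τ.im →
      ‖eN N a b τ‖ ≤ C * Real.exp (-2 * π * (min a (N - a) : ℤ) / N * τ.im) := by
  have hπ := Real.pi_pos
  have hN : (0 : ℝ) < N := by exact_mod_cast (NeZero.pos N)
  set K : ℝ := 2 / (1 - Real.exp (-2 * π * (1 / N))) ^ 3 with hK
  have hK0 : 0 ≤ K := by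
    have hs : Real.exp (-2 * π * (1 / N)) < 1 := by
      rw [Real.exp_lt_one_iff]
      have : 0 < 1 / (N : ℝ) := by positivity
      nlinarith
    have : 0 < 1 - Real.exp (-2 * π * (1 / N)) := by linarith
    positivity
  set S : ℝ := ∑' m : ℤ, Real.exp (-2 * π * |(m : ℝ)|) with hS
  refine ⟨(2 * π) ^ 3 * K * Real.exp (2 * π) * S, fun τ hτ => ?_⟩
  set y := τ.im with hy
  set μ : ℝ := ((min a (N - a) : ℤ) : ℝ) with hμ
  have hμa : μ ≤ a := by rw [hμ]; exact_mod_cast min_le_left _ _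
  have hμN : μ ≤ N - a := by rw [hμ]; exact_mod_cast min_le_right a (N - a)
  have ha1 : (1 : ℝ) ≤ a := by exact_mod_cast ha0
  have haN1 : (1 : ℝ) ≤ N - a := by
    have : (1 : ℤ) ≤ N - a := by omega
    exact_mod_cast this
  set z : ℂ := ((a : ℂ) * τ + b) / N with hz
  have him : ∀ m : ℤ, (z - m * τ).im = ((a : ℝ) / N - m) * y := by
    intro m
    have e : z - m * τ = (((a : ℝ) / N - m : ℝ) : ℂ) * τ + ((b / N : ℝ) : ℂ) := by
      rw [hz]
      push_cast
      ring
    rw [e]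
    simp [hy]
  -- lower bounds for `|Im|`
  have hlow : ∀ m : ℤ, 1 / (N : ℝ) ≤ |(z - m * τ).im| ∧
      μ / N * y + (|(m : ℝ)| - 1) ≤ |(z - m * τ).im| := by
    intro m
    rw [him]
    rcases le_or_gt m 0 with hm | hm
    · have hm' : (m : ℝ) ≤ 0 := by exact_mod_cast hm
      have h1 : 0 ≤ (a : ℝ) / N - m := by
        have : 0 ≤ (a : ℝ) / N := by positivity
        linarith
      rw [abs_of_nonneg (mul_nonneg h1 (by linarith)), abs_of_nonpos hm']
      have h2 : 1 / (N : ℝ) ≤ (a : ℝ) / N := by gcongr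
      have h3 : μ / N ≤ (a : ℝ) / N := by gcongr
      constructor
      · nlinarith
      · nlinarith
    · have hm' : (1 : ℝ) ≤ m := by exact_mod_cast hm
      have e : (a : ℝ) / N - m = -(((N : ℝ) - a) / N + (m - 1)) := by
        field_simp
        ring
      have h1 : 0 ≤ ((N : ℝ) - a) / N + (m - 1) := by
        have : 0 ≤ ((N : ℝ) - a) / N := by
          apply div_nonneg <;> linarith
        linarith
      rw [e, neg_mul, abs_neg, abs_of_nonneg (mul_nonneg h1 (by linarith)),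
        abs_of_nonneg (by linarith : (0 : ℝ) ≤ m)]
      have h2 : 1 / (N : ℝ) ≤ ((N : ℝ) - a) / N := by gcongr
      have h3 : μ / N ≤ ((N : ℝ) - a) / N := by gcongr
      constructor
      · nlinarith
      · nlinarith
  have hzl : ∀ m n : ℤ, z ≠ m * τ + n := by
    intro m n h
    have h1 := (hlow m).1
    have h2 : (z - m * τ).im = 0 := by
      rw [h]; simp
    rw [h2, abs_zero] at h1
    have : 0 < 1 / (N : ℝ) := by positivity
    linarith
  have hsum := hasSum_Phi τ hzl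
  have hg : HasSum (fun m : ℤ => (2 * π) ^ 3 * K * Real.exp (2 * π) *
      Real.exp (-2 * π * μ / N * y) * Real.exp (-2 * π * |(m : ℝ)|))
      ((2 * π) ^ 3 * K * Real.exp (2 * π) * Real.exp (-2 * π * μ / N * y) * S) :=
    summable_exp_abs.hasSum.mul_left _
  have hb := hsum.norm_le_of_bounded hg (fun m => ?_)
  · calc ‖eN N a b τ‖ ≤ _ := hb
      _ = _ := by ring
  · have h1 := norm_Phi_ee_le (δ := 1 / N) (by positivity) (hlow m).1
    rw [norm_mul, norm_pow]
    have e1 : ‖(2 * π * Complex.I : ℂ)‖ = 2 * π := by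
      simp [abs_of_pos hπ]
    rw [e1]
    have h2 : Real.exp (-2 * π * |(z - m * τ).im|) ≤
        Real.exp (2 * π) * Real.exp (-2 * π * μ / N * y) * Real.exp (-2 * π * |(m : ℝ)|) := by
      rw [← Real.exp_add, ← Real.exp_add, Real.exp_le_exp]
      have := (hlow m).2
      have e2 : -2 * π * μ / N * y = -2 * π * (μ / N * y) := by ring
      rw [e2]
      nlinarith
    calc (2 * π) ^ 3 * ‖Phi (ee (z - m * τ))‖
        ≤ (2 * π) ^ 3 * (K * Real.exp (-2 * π * |(z - m * τ).im|)) := by gcongr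
      _ ≤ (2 * π) ^ 3 * (K * (Real.exp (2 * π) * Real.exp (-2 * π * μ / N * y) *
            Real.exp (-2 * π * |(m : ℝ)|))) := by gcongr
      _ = _ := by ring

theorem eN_tendsto (b : ℤ) (hb : ¬ (N : ℤ) ∣ b) :
    Tendsto (eN N 0 b) atImInfty
      (𝓝 ((2 * π * Complex.I) ^ 3 * (Complex.exp (2 * π * Complex.I * b / N) *
        (1 + Complex.exp (2 * π * Complex.I * b / N)) /
          (1 - Complex.exp (2 * π * Complex.I * b / N)) ^ 3))) := by
  have hπ := Real.pi_pos
  have hN : (0 : ℝ) < N := by exact_mod_cast (NeZero.pos N)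
  have hNC : (N : ℂ) ≠ 0 := by exact_mod_cast (NeZero.ne N)
  set K : ℝ := 2 / (1 - Real.exp (-2 * π * 1)) ^ 3 with hK
  have hK0 : 0 ≤ K := by
    have hs : Real.exp (-2 * π * 1) < 1 := by
      rw [Real.exp_lt_one_iff]
      nlinarith
    have : 0 < 1 - Real.exp (-2 * π * 1) := by linarith
    positivity
  set S : ℝ := ∑' m : ℤ, Real.exp (-2 * π * |(m : ℝ)|) with hS
  set z : ℂ := (b : ℂ) / N with hz
  set t₀ : ℂ := (2 * π * Complex.I) ^ 3 * Phi (ee z) with ht₀
  have htarget : (2 * π * Complex.I) ^ 3 * (Complex.exp (2 * π * Complex.I * b / N) *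
        (1 + Complex.exp (2 * π * Complex.I * b / N)) /
          (1 - Complex.exp (2 * π * Complex.I * b / N)) ^ 3) = t₀ := by
    rw [ht₀, Phi, ee, hz, mul_div_assoc (2 * π * Complex.I : ℂ) (b : ℂ) (N : ℂ)]
  rw [htarget]
  have hzim : z.im = 0 := by
    have : z = ((b / N : ℝ) : ℂ) := by rw [hz]; push_cast; rfl
    rw [this, Complex.ofReal_im]
  have main : ∀ τ : ℍ, 1 ≤ τ.im →
      ‖eN N 0 b τ - t₀‖ ≤ (2 * π) ^ 3 * K * Real.exp (2 * π) * S * Real.exp (-2 * π * τ.im) := by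
    intro τ hτ
    set y := τ.im with hy
    have him : ∀ m : ℤ, (z - m * τ).im = - (m * y) := by
      intro m
      simp [hzim, hy]
    have hzl : ∀ m n : ℤ, z ≠ m * τ + n := by
      intro m n h
      have h1 := him m
      have h2 : (z - m * τ).im = 0 := by rw [h]; simp
      rw [h2] at h1
      have hm : m = 0 := by
        have : (m : ℝ) * y = 0 := by linarith
        rcases mul_eq_zero.mp this with h0 | h0
        · exact_mod_cast h0
        · linarith
      subst hm
      apply hb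
      refine ⟨n, ?_⟩
      have h3 : (b : ℂ) = N * n := by
        rw [hz] at h
        field_simp at h
        rw [h]; push_cast; ring
      exact_mod_cast h3
    have hsum := (hasSum_Phi τ hzl).update 0 0
    have he : eN N 0 b τ = ℘'[tauPair τ] z := by
      rw [eN, hz]; simp
    have hval : (0 : ℂ) - (2 * π * Complex.I) ^ 3 * Phi (ee (z - ((0 : ℤ) : ℂ) * τ)) +
        ℘'[tauPair τ] z = eN N 0 b τ - t₀ := by
      rw [he, ht₀]; simp; ring
    rw [hval] at hsum
    have hg : HasSum (fun m : ℤ => (2 * π) ^ 3 * K * Real.exp (2 * π) *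
        Real.exp (-2 * π * y) * Real.exp (-2 * π * |(m : ℝ)|))
        ((2 * π) ^ 3 * K * Real.exp (2 * π) * Real.exp (-2 * π * y) * S) :=
      summable_exp_abs.hasSum.mul_left _
    have hb' := hsum.norm_le_of_bounded hg (fun m => ?_)
    · calc ‖eN N 0 b τ - t₀‖ ≤ _ := hb'
        _ = _ := by ring
    · by_cases hm : m = 0
      · subst hm
        rw [Function.update_self, norm_zero]
        positivity
      · rw [Function.update_of_ne hm]
        have hm1 : (1 : ℝ) ≤ |(m : ℝ)| := by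
          have : (1 : ℤ) ≤ |m| := Int.one_le_abs hm
          exact_mod_cast this
        have habs : |(z - m * τ).im| = |(m : ℝ)| * y := by
          rw [him, abs_neg, abs_mul, abs_of_pos (by linarith : (0 : ℝ) < y)]
        have h1 := norm_Phi_ee_le (δ := 1) (by norm_num) (w := z - m * τ)
          (by rw [habs]; nlinarith)
        rw [norm_mul, norm_pow]
        have e1 : ‖(2 * π * Complex.I : ℂ)‖ = 2 * π := by
          simp [abs_of_pos hπ]
        rw [e1]
        have h2 : Real.exp (-2 * π * |(z - m * τ).im|) ≤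
            Real.exp (2 * π) * Real.exp (-2 * π * y) * Real.exp (-2 * π * |(m : ℝ)|) := by
          rw [← Real.exp_add, ← Real.exp_add, Real.exp_le_exp, habs]
          have : 0 ≤ (|(m : ℝ)| - 1) * (y - 1) := mul_nonneg (by linarith) (by linarith)
          nlinarith
        calc (2 * π) ^ 3 * ‖Phi (ee (z - m * τ))‖
            ≤ (2 * π) ^ 3 * (K * Real.exp (-2 * π * |(z - m * τ).im|)) := by gcongr
          _ ≤ (2 * π) ^ 3 * (K * (Real.exp (2 * π) * Real.exp (-2 * π * y) *
                Real.exp (-2 * π * |(m : ℝ)|))) := by gcongr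
          _ = _ := by ring
  rw [tendsto_iff_norm_sub_tendsto_zero]
  have him : Tendsto (fun τ : ℍ => τ.im) atImInfty atTop := tendsto_comap
  have hlim : Tendsto (fun τ : ℍ => (2 * π) ^ 3 * K * Real.exp (2 * π) * S *
      Real.exp (-2 * π * τ.im)) atImInfty (𝓝 0) := by
    have h1 : Tendsto (fun τ : ℍ => -2 * π * τ.im) atImInfty atBot := by
      have : Tendsto (fun x : ℝ => -2 * π * x) atTop atBot :=
        tendsto_id.const_mul_atTop_of_neg (by linarith)
      exact this.comp him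
    have h2 := (Real.tendsto_exp_atBot.comp h1).const_mul ((2 * π) ^ 3 * K * Real.exp (2 * π) * S)
    simpa using h2
  refine squeeze_zero' (Eventually.of_forall fun τ => norm_nonneg _) ?_ hlim
  filter_upwards [him.eventually_ge_atTop 1] with τ hτ
  exact main τ hτ

end Fermat.Agent.MAZ.Klein
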